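/-
S55 / LOC / LUN: all nodes are landed (`Loc/Unr/Export.lean`).  This file is only a shim for files
that still refer to `UnrWIP.L7_of_localInput`; use `Fermat.Agent.S55.Loc.L7_of_localInput`.
-/
import Fermat.Agent.S55.Loc.Unr.Export

namespace Fermat.Agent.S55.Loc.UnrWIP

alias L7_of_localInput := Fermat.Agent.S55.Loc.L7_of_localInput

end Fermat.Agent.S55.Loc.UnrWIP
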